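import Fermat.Agent.Mazur.Small.Line
import Fermat.Prelude.Def_FLTPrelim_GaloisRep

/-!
# From a reducible mod `p` representation to a Galois stable cyclic subgroup

`exists_stable_point` (for S51): if `E[p]` has `p ^ 2` elements and is not irreducible, some point
of order `p` spans a Galois stable line.
-/

set_option autoImplicit false

namespace Fermat.Agent.Mazur.Fifteen

open WeierstrassCurve WeierstrassCurve.Affine WeierstrassCurve.Affine.Point

/-- If `#E[p] = p²` and `E[p]` is not irreducible, some point of order `p` spans a stable line. -/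
theorem exists_stable_point {K : Type*} [Field K] [DecidableEq K] [Algebra ℚ K]
    (W : Affine ℚ) (p : ℕ) (hp : p.Prime)
    (hcard : Nat.card (Submodule.torsionBy ℤ (W⁄K).Point p) = p ^ 2)
    (h : ¬ GaloisRepIsIrreducible (K := K) ℚ W p) :
    ∃ P : (W⁄K).Point, P ≠ 0 ∧ p • P = 0 ∧ ∀ σ : K ≃ₐ[ℚ] K, ∃ k : ℕ, k < p ∧ σ • P = k • P := by
  have : Finite (Submodule.torsionBy ℤ (W⁄K).Point p) :=
    Nat.finite_of_card_ne_zero (by rw [hcard]; exact pow_ne_zero 2 hp.ne_zero)
  have hnt : Nontrivial (Submodule.torsionBy ℤ (W⁄K).Point p) := by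
    rw [← Finite.one_lt_card_iff_nontrivial, hcard]; exact Nat.one_lt_pow two_ne_zero hp.one_lt
  rw [GaloisRepIsIrreducible] at h
  push Not at h
  obtain ⟨N, hN, hbot, htop⟩ := h hnt
  obtain ⟨P, hP0, hpP, hgal⟩ := Small.exists_point_of_stable_line W hp hcard hN hbot htop
  refine ⟨P, hP0, hpP, fun σ => ?_⟩
  obtain ⟨k, hk⟩ := hgal σ
  exact ⟨k % p, Nat.mod_lt _ hp.pos, hk.trans (nsmul_eq_mod_nsmul k hpP)⟩

end Fermat.Agent.Mazur.Fifteen
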