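import Mathlib.FieldTheory.Galois.Infinite
import Mathlib.Tactic
import Fermat.Prelude.Def_FLTPrelim_GaloisRep

/-!
# A Galois stable line in `E[3]` gives a rational point on `X₀(3)`

`exists_hauptmodul_three` (for S51), through the invariant `u = a₁³ / a₃` of the normal form
`y² + a₁ x y + a₃ y = x³` at a generator of the line.
-/

set_option autoImplicit false

namespace Fermat.Agent.Mazur.Fifteen

open WeierstrassCurve WeierstrassCurve.Affine

variable {F : Type*} [Field F]

/-- Slope of the tangent line. -/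
noncomputable def tangentSlope (V : WeierstrassCurve F) (x y : F) : F :=
  (3 * x ^ 2 + 2 * V.a₂ * x + V.a₄ - V.a₁ * y) / (2 * y + V.a₁ * x + V.a₃)

/-- The invariant `u = a₁³ / a₃` of a curve in the normal form `y² + a₁ x y + a₃ y = x³`. -/
noncomputable def threeInvariant (V : WeierstrassCurve F) (x y : F) : F :=
  (V.a₁ + 2 * tangentSlope V x y) ^ 3 / (2 * y + V.a₁ * x + V.a₃)

lemma threeInvariant_negY (V : WeierstrassCurve F) (x y : F)
    (hψ : 2 * y + V.a₁ * x + V.a₃ ≠ 0) :
    threeInvariant V x (V.toAffine.negY x y) = threeInvariant V x y := by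
  have h1 : 2 * V.toAffine.negY x y + V.a₁ * x + V.a₃ = -(2 * y + V.a₁ * x + V.a₃) := by
    rw [Affine.negY]; ring
  have h2 : V.a₁ + 2 * tangentSlope V x (V.toAffine.negY x y)
      = -(V.a₁ + 2 * tangentSlope V x y) := by
    rw [tangentSlope, tangentSlope, h1, Affine.negY]
    field_simp
    ring
  rw [threeInvariant, threeInvariant, h1, h2, Odd.neg_pow (by decide), neg_div_neg_eq]

lemma threeInvariant_identity (V : WeierstrassCurve F) (x y : F) (h : V.toAffine.Equation x y)
    (hψ : 2 * y + V.a₁ * x + V.a₃ ≠ 0)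
    (h3 : tangentSlope V x y ^ 2 + V.a₁ * tangentSlope V x y - V.a₂ - 3 * x = 0) :
    V.c₄ ^ 3 * (threeInvariant V x y - 27)
      = V.Δ * threeInvariant V x y * (threeInvariant V x y - 24) ^ 3 := by
  rw [Affine.equation_iff] at h
  have hl : tangentSlope V x y * (2 * y + V.a₁ * x + V.a₃)
      = 3 * x ^ 2 + 2 * V.a₂ * x + V.a₄ - V.a₁ * y := by
    rw [tangentSlope, div_mul_cancel₀ _ hψ]
  set C : VariableChange F := ⟨1, x, tangentSlope V x y, y⟩ with hC
  have hc : (C • V).c₄ = V.c₄ := by rw [variableChange_c₄]; simp [hC]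
  have hd : (C • V).Δ = V.Δ := by rw [variableChange_Δ]; simp [hC]
  have h2' : (C • V).a₂ = 0 := by
    rw [variableChange_a₂]; simp only [hC, inv_one, Units.val_one]
    linear_combination -h3
  have h4' : (C • V).a₄ = 0 := by
    rw [variableChange_a₄]; simp only [hC, inv_one, Units.val_one]
    linear_combination -hl
  have h6' : (C • V).a₆ = 0 := by
    rw [variableChange_a₆]; simp only [hC, inv_one, Units.val_one]
    linear_combination -h
  have hu : threeInvariant V x y = (C • V).a₁ ^ 3 / (C • V).a₃ := by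
    rw [threeInvariant, variableChange_a₁, variableChange_a₃]
    simp only [hC, inv_one, Units.val_one]
    congr 1 <;> ring
  have h3' : (C • V).a₃ ≠ 0 := by
    rw [variableChange_a₃]; simp only [hC, inv_one, Units.val_one]
    intro h0; exact hψ (by linear_combination h0)
  rw [← hc, ← hd, hu]
  simp only [WeierstrassCurve.c₄, WeierstrassCurve.Δ, WeierstrassCurve.b₂, WeierstrassCurve.b₄,
    WeierstrassCurve.b₆, WeierstrassCurve.b₈, h2', h4', h6']
  field_simp
  ring

variable [DecidableEq F]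

/-- What `3 • P = 0` says in coordinates. -/
lemma three_torsion_coords (V : WeierstrassCurve F) {x y : F} (h : V.toAffine.Nonsingular x y)
    (h3 : (3 : ℕ) • (Point.some x y h : V.toAffine.Point) = 0) :
    2 * y + V.a₁ * x + V.a₃ ≠ 0 ∧
      tangentSlope V x y ^ 2 + V.a₁ * tangentSlope V x y - V.a₂ - 3 * x = 0 := by
  have h2 : (Point.some x y h : V.toAffine.Point) + Point.some x y h = -Point.some x y h := by
    rw [eq_neg_iff_add_eq_zero, ← h3]; abel
  by_cases hy : y = V.toAffine.negY x y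
  · rw [Point.add_self_of_Y_eq hy] at h2
    exact absurd (neg_eq_zero.1 h2.symm) (Point.some_ne_zero h)
  have hψ : 2 * y + V.a₁ * x + V.a₃ ≠ 0 := fun h0 => hy (by rw [Affine.negY]; linear_combination h0)
  refine ⟨hψ, ?_⟩
  rw [Point.add_self_of_Y_ne hy, Point.neg_some] at h2
  have hx := (Point.some.inj h2).1
  rw [Affine.slope_of_Y_ne rfl hy] at hx
  have hs : (3 * x ^ 2 + 2 * V.a₂ * x + V.a₄ - V.a₁ * y) / (y - V.toAffine.negY x y)
      = tangentSlope V x y := by
    rw [tangentSlope, Affine.negY]; congr 1; ring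
  rw [hs, Affine.addX] at hx
  linear_combination hx

variable {K : Type*} [Field K] [Algebra ℚ K] [IsGalois ℚ K] [DecidableEq K]

omit [IsGalois ℚ K] in
/-- A Galois element moves an affine point by acting on both coordinates. -/
lemma smul_some (W : WeierstrassCurve ℚ) (σ : K ≃ₐ[ℚ] K) {x y : K}
    (h : (W⁄K).toAffine.Nonsingular x y) :
    ∃ h' : (W⁄K).toAffine.Nonsingular (σ x) (σ y),
      σ • (Point.some x y h : (W⁄K).toAffine.Point) = Point.some (σ x) (σ y) h' :=
  ⟨_, rfl⟩

/-- A Galois stable subgroup of order `3` gives a rational point on `X₀(3)`. -/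
theorem exists_hauptmodul_three (W : WeierstrassCurve ℚ) (hΔ : W.Δ ≠ 0)
    (P : (W⁄K).Point) (hP : P ≠ 0) (h3 : (3 : ℕ) • P = 0)
    (hstab : ∀ σ : K ≃ₐ[ℚ] K, σ • P = P ∨ σ • P = -P) :
    ∃ T : ℚ, T ≠ 0 ∧ W.c₄ ^ 3 * T = W.Δ * ((T + 27) * (T + 3) ^ 3) := by
  obtain _ | ⟨x, y, h⟩ := P
  · exact absurd rfl hP
  let V : WeierstrassCurve K := W⁄K
  obtain ⟨hψ, hl⟩ := three_torsion_coords V h h3
  have hfix : ∀ σ : K ≃ₐ[ℚ] K, σ (threeInvariant V x y) = threeInvariant V x y := by
    intro σ
    have e1 : σ (threeInvariant V x y) = threeInvariant V (σ x) (σ y) := by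
      simp [threeInvariant, tangentSlope, V, map_div₀, map_ofNat]
    rw [e1]
    obtain ⟨h', e2⟩ := smul_some W σ h
    rcases hstab σ with hσ | hσ
    · rw [e2] at hσ
      obtain ⟨hx, hy⟩ := Point.some.inj hσ
      rw [hx, hy]
    · rw [e2, Point.neg_some] at hσ
      obtain ⟨hx, hy⟩ := Point.some.inj hσ
      rw [hx, hy]
      exact threeInvariant_negY V x y hψ
  obtain ⟨u, hu⟩ := (InfiniteGalois.mem_range_algebraMap_iff_fixed (k := ℚ) _).2 hfix
  have hid := threeInvariant_identity V x y h.left hψ hl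
  have hid' : algebraMap ℚ K (W.c₄ ^ 3 * (u - 27))
      = algebraMap ℚ K (W.Δ * u * (u - 24) ^ 3) := by
    simp only [map_mul, map_pow, map_sub, map_ofNat, hu]
    rw [← WeierstrassCurve.map_c₄, ← WeierstrassCurve.map_Δ]
    exact hid
  have hid'' := (algebraMap ℚ K).injective hid'
  refine ⟨u - 27, ?_, by linear_combination hid''⟩
  intro h0
  have : u = 27 := by linarith
  subst this
  norm_num at hid''
  exact hΔ hid''

end Fermat.Agent.Mazur.Fifteen
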