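import Mathlib.FieldTheory.Galois.Infinite
import Mathlib.Tactic
import Fermat.Prelude.Def_FLTPrelim_GaloisRep

/-!
# A Galois stable line in `E[5]` gives a rational point on `X₀(5)`

`exists_hauptmodul_five` (for S51): for a point `P` of order `5` the Tate parameter is
`b = -ψ(2P) / ψ(P)` with `ψ = 2y + a₁x + a₃`; replacing `P` by `2P` changes `b` into `-1/b`, so
`S = b - 1/b - 11` only depends on the line.
-/

set_option autoImplicit false

namespace Fermat.Agent.Mazur.Fifteen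

open WeierstrassCurve WeierstrassCurve.Affine

variable {F : Type*} [Field F]

/-- `ψ₂ = 2y + a₁x + a₃` as a function on points. -/
def psiTwo (V : WeierstrassCurve F) : V.toAffine.Point → F
  | 0 => 0
  | .some x y _ => 2 * y + V.a₁ * x + V.a₃

lemma tate_identity (a₁ e a₃ : F) (he : e ≠ 0) (ha : a₃ ≠ 0)
    (hrel : a₃ * (a₃ - a₁ * e) = -e ^ 3) (N : WeierstrassCurve F) (h1 : N.a₁ = a₁) (h2 : N.a₂ = e)
    (h3 : N.a₃ = a₃) (h4 : N.a₄ = 0) (h6 : N.a₆ = 0) :
    let b : F := -(a₁ * e - a₃) / a₃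
    b ≠ 0 ∧ N.c₄ ^ 3 * (b - 1 / b - 11)
      = N.Δ * ((b - 1 / b - 11) ^ 2 + 10 * (b - 1 / b - 11) + 5) ^ 3 := by
  intro b
  have ha1 : a₁ = (a₃ ^ 2 + e ^ 3) / (e * a₃) := by
    rw [eq_div_iff (mul_ne_zero he ha)]
    linear_combination -hrel
  have hb : b = -e ^ 3 / a₃ ^ 2 := by
    simp only [b, ha1]
    field_simp
    ring
  refine ⟨by rw [hb]; simp [he, ha], ?_⟩
  rw [hb]
  simp only [WeierstrassCurve.c₄, WeierstrassCurve.Δ, WeierstrassCurve.b₂, WeierstrassCurve.b₄,
    WeierstrassCurve.b₆, WeierstrassCurve.b₈, h1, h2, h3, h4, h6, ha1]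
  field_simp
  ring

variable [DecidableEq F]

omit [DecidableEq F] in
lemma psiTwo_neg (V : WeierstrassCurve F) (P : V.toAffine.Point) :
    psiTwo V (-P) = -psiTwo V P := by
  rcases P with _ | ⟨x, y, h⟩
  · exact neg_zero.symm
  · rw [Point.neg_some, psiTwo, psiTwo, Affine.negY]; ring

/-- The Tate parameter of a point of order five. -/
noncomputable def tateParam (V : WeierstrassCurve F) (P : V.toAffine.Point) : F :=
  -psiTwo V (2 • P) / psiTwo V P

/-- The Tate parameter `b` of a point of order `5` gives a point on the model `S = b - 1/b - 11`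
of `X₀(5)`. -/
lemma five_torsion_identity (V : WeierstrassCurve F) (P : V.toAffine.Point) (hP : P ≠ 0)
    (h5 : 5 • P = 0) :
    let b : F := tateParam V P
    b ≠ 0 ∧ V.c₄ ^ 3 * (b - 1 / b - 11)
      = V.Δ * ((b - 1 / b - 11) ^ 2 + 10 * (b - 1 / b - 11) + 5) ^ 3 := by
  -- `2P` and `3P = -2P` are nonzero
  have h2P : 2 • P ≠ 0 := by
    intro h0
    apply hP
    have : 5 • P = 2 • (2 • P) + P := by rw [← mul_nsmul, ← succ_nsmul]
    rw [h5, h0, nsmul_zero, zero_add] at this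
    exact this.symm
  have h3P : 3 • P ≠ 0 := by
    intro h0
    apply h2P
    have : 5 • P = 3 • P + 2 • P := by rw [← add_nsmul]
    rw [h5, h0, zero_add] at this
    exact this.symm
  have hadd : 2 • P + P = -(2 • P) := by
    rw [eq_neg_iff_add_eq_zero, ← h5]; abel
  rcases P with _ | ⟨x, y, h⟩
  · exact absurd rfl hP
  by_cases hy : y = V.toAffine.negY x y
  · exact absurd (by rw [two_nsmul, Point.add_self_of_Y_eq hy]) h2P
  have hψ : 2 * y + V.a₁ * x + V.a₃ ≠ 0 := fun h0 => hy (by rw [Affine.negY]; linear_combination h0)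
  -- with `l` the tangent slope at `P`, `2P = (x2, y2)` and `x2 ≠ x`
  set l : F := V.toAffine.slope x x y y with hl
  have hlψ : l * (2 * y + V.a₁ * x + V.a₃) = 3 * x ^ 2 + 2 * V.a₂ * x + V.a₄ - V.a₁ * y := by
    rw [hl, Affine.slope_of_Y_ne rfl hy, Affine.negY,
      show y - (-y - V.a₁ * x - V.a₃) = 2 * y + V.a₁ * x + V.a₃ by ring, div_mul_cancel₀ _ hψ]
  obtain ⟨x2, y2, h', h2, hx2', hy2'⟩ : ∃ x2 y2 h',
      2 • (Point.some x y h : V.toAffine.Point) = Point.some x2 y2 h' ∧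
        x2 = l ^ 2 + V.a₁ * l - V.a₂ - x - x ∧
        y2 = -(l * (x2 - x) + y) - V.a₁ * x2 - V.a₃ :=
    ⟨V.toAffine.addX x x l, V.toAffine.addY x x y l, _,
      by rw [two_nsmul, Point.add_self_of_Y_ne hy], rfl, rfl⟩
  clear_value l
  have hne : x2 ≠ x := by
    intro he
    rcases Affine.Y_eq_of_X_eq h'.left h.left he with e | e
    · apply hP
      have : (Point.some x y h : V.toAffine.Point) + Point.some x y h = Point.some x y h := by
        rw [← two_nsmul, h2]; congr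
      simp at this
    · apply h3P
      rw [show (3 : ℕ) • (Point.some x y h : V.toAffine.Point) =
        2 • Point.some x y h + Point.some x y h from succ_nsmul _ 2, h2, Point.add_of_Y_eq he e]
  -- `3P = -2P` reads `x(3P) = x2`
  rw [h2, Point.add_of_X_ne hne, Point.neg_some] at hadd
  have hX := (Point.some.inj hadd).1
  rw [Affine.slope_of_X_ne hne, Affine.addX] at hX
  have he : x - x2 ≠ 0 := sub_ne_zero.2 (Ne.symm hne)
  have he' : x2 - x ≠ 0 := sub_ne_zero.2 hne
  have hψ2 : psiTwo V (2 • (Point.some x y h : V.toAffine.Point))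
      = (V.a₁ + 2 * l) * (x - x2) - (2 * y + V.a₁ * x + V.a₃) := by
    rw [h2, psiTwo, hy2']; ring
  have hb : tateParam V (Point.some x y h)
      = -((V.a₁ + 2 * l) * (x - x2) - (2 * y + V.a₁ * x + V.a₃))
        / (2 * y + V.a₁ * x + V.a₃) := by
    rw [tateParam, hψ2, psiTwo]
  intro b
  rw [show b = _ from hb]
  -- moving `P` to `(0, 0)` with horizontal tangent gives the normal form
  -- `y² + a₁xy + a₃y = x³ + a₂x²`, on which `tate_identity` applies
  set C : VariableChange F := ⟨1, x, l, y⟩ with hC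
  have hc : (C • V).c₄ = V.c₄ := by rw [variableChange_c₄]; simp [hC]
  have hd : (C • V).Δ = V.Δ := by rw [variableChange_Δ]; simp [hC]
  rw [← hc, ← hd]
  -- `x(3P) = x2` is the relation between its coefficients
  have hrel : (2 * y + V.a₁ * x + V.a₃) *
      ((2 * y + V.a₁ * x + V.a₃) - (V.a₁ + 2 * l) * (x - x2)) = -(x - x2) ^ 3 := by
    have hm : (y2 - y) / (x2 - x) * (x2 - x) = y2 - y := div_mul_cancel₀ _ he'
    generalize (y2 - y) / (x2 - x) = m at hm hX
    linear_combination (x2 - x) ^ 2 * hX + (x2 - x) ^ 2 * hx2'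
      - (m * (x2 - x) + (y2 - y) + V.a₁ * (x2 - x)) * hm
      + (-(y2 - y) - V.a₁ * (x2 - x)
        + (l * (x2 - x) + V.a₁ * (x2 - x) + (2 * y + V.a₁ * x + V.a₃))) * hy2'
  refine tate_identity (V.a₁ + 2 * l) (x - x2) (2 * y + V.a₁ * x + V.a₃) he hψ hrel (C • V)
    ?_ ?_ ?_ ?_ ?_
  · rw [variableChange_a₁]; simp [hC]
  · rw [variableChange_a₂]; simp only [hC, inv_one, Units.val_one]; linear_combination hx2'
  · rw [variableChange_a₃]; simp only [hC, inv_one, Units.val_one]; ring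
  · rw [variableChange_a₄]; simp only [hC, inv_one, Units.val_one]; linear_combination -hlψ
  · rw [variableChange_a₆]; simp only [hC, inv_one, Units.val_one]
    linear_combination -((Affine.equation_iff x y).1 h.left)

variable {K : Type*} [Field K] [Algebra ℚ K] [DecidableEq K]

lemma psiTwo_smul (W : WeierstrassCurve ℚ) (σ : K ≃ₐ[ℚ] K) (P : (W⁄K).toAffine.Point) :
    psiTwo (W⁄K) (σ • P) = σ (psiTwo (W⁄K) P) := by
  rcases P with _ | ⟨x, y, h⟩
  · exact (map_zero σ).symm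
  · show psiTwo (W⁄K) (Point.some (σ x) (σ y) _) = _
    simp [psiTwo, map_ofNat]

lemma smul_two_nsmul (W : WeierstrassCurve ℚ) (σ : K ≃ₐ[ℚ] K) (P : (W⁄K).toAffine.Point) :
    σ • (2 • P) = 2 • (σ • P) :=
  map_nsmul (Point.map (W' := W.toAffine) σ.toAlgHom) 2 P

/-- A Galois stable subgroup of order `5` gives a rational point on `X₀(5)`. -/
theorem exists_hauptmodul_five [IsGalois ℚ K] (W : WeierstrassCurve ℚ) (hΔ : W.Δ ≠ 0)
    (P : (W⁄K).toAffine.Point) (hP : P ≠ 0) (h5 : 5 • P = 0)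
    (hstab : ∀ σ : K ≃ₐ[ℚ] K, ∃ k : ℕ, k < 5 ∧ σ • P = k • P) :
    ∃ S : ℚ, S ≠ 0 ∧ W.c₄ ^ 3 * S = W.Δ * (S ^ 2 + 10 * S + 5) ^ 3 := by
  obtain ⟨hb0, hid⟩ := five_torsion_identity (W⁄K) P hP h5
  set b : K := tateParam (W⁄K) P with hb
  have h3 : (3 : ℕ) • P = -((2 : ℕ) • P) := by rw [eq_neg_iff_add_eq_zero, ← h5]; abel
  have h4 : (4 : ℕ) • P = -P := by rw [eq_neg_iff_add_eq_zero, ← h5]; abel
  have hfix : ∀ σ : K ≃ₐ[ℚ] K, σ (b - 1 / b - 11) = b - 1 / b - 11 := by
    intro σ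
    obtain ⟨k, hk, hσ⟩ := hstab σ
    have hσb : σ b = -psiTwo (W⁄K) (2 • (k • P)) / psiTwo (W⁄K) (k • P) := by
      rw [hb, tateParam, map_div₀, map_neg, ← psiTwo_smul, ← psiTwo_smul, smul_two_nsmul, hσ]
    have hcases : σ b = b ∨ σ b = -1 / b := by
      interval_cases k
      · exfalso; rw [zero_nsmul] at hσ; exact hP ((smul_eq_zero_iff_eq σ).1 hσ)
      · left; rw [hσb, one_nsmul, hb, tateParam]
      · right
        rw [hσb, ← mul_nsmul, show 2 * 2 = 4 from rfl, h4, psiTwo_neg, hb, tateParam, neg_neg,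
          div_div_eq_mul_div, neg_one_mul, div_neg, neg_div, neg_neg]
      · right
        rw [hσb, h3, smul_neg, ← mul_nsmul, show 2 * 2 = 4 from rfl, h4, neg_neg, psiTwo_neg, hb,
          tateParam, div_div_eq_mul_div, neg_one_mul, div_neg, neg_div]
      · left
        rw [hσb, h4, smul_neg, psiTwo_neg, psiTwo_neg, hb, tateParam, neg_div_neg_eq, neg_div]
    rw [map_sub, map_sub, map_div₀, map_one, map_ofNat]
    rcases hcases with e | e <;> rw [e]
    field_simp
    ring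
  obtain ⟨S, hS⟩ := (InfiniteGalois.mem_range_algebraMap_iff_fixed (k := ℚ) (b - 1 / b - 11)).2 hfix
  rw [← hS] at hid
  simp only [WeierstrassCurve.baseChange, WeierstrassCurve.map_c₄, WeierstrassCurve.map_Δ] at hid
  have hid' : W.c₄ ^ 3 * S = W.Δ * (S ^ 2 + 10 * S + 5) ^ 3 := by
    apply (algebraMap ℚ K).injective
    simp only [map_mul, map_pow, map_add, map_ofNat]
    exact hid
  refine ⟨S, ?_, hid'⟩
  rintro rfl
  norm_num at hid'
  exact hΔ hid'

end Fermat.Agent.Mazur.Fifteen
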