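import Fermat.Agent.Mazur.Fifteen.Quartic
import Fermat.Agent.Mazur.Small.Basic

/-!
# Rational points on `X₀(15)` as the fibre product of the level 3 and level 5 Hauptmoduln

If `(T + 27) (T + 3)³ / T = (S² + 10 S + 5)³ / S` with `S, T` nonzero rationals, then the numerator
of `S` is divisible by `5` but not by `125`.
-/

set_option autoImplicit false

namespace Fermat.Agent.Mazur.Fifteen

lemma octic_ne_zero (w : ℚ) : w ^ 8 + 4 * w ^ 7 - 16 * w ^ 6 - 32 * w ^ 5 + 124 * w ^ 4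
    - 64 * w ^ 3 - 64 * w ^ 2 + 32 * w + 16 ≠ 0 := by
  intro h
  have hd : (w.den : ℚ) ≠ 0 := by exact_mod_cast w.den_ne_zero
  rw [← Rat.num_div_den w] at h
  field_simp at h
  generalize hn : w.num = n at h
  generalize hdd : w.den = d at h hd
  have hz : n ^ 8 + (d : ℤ) * (4 * n ^ 7 - 16 * n ^ 6 * d - 32 * n ^ 5 * d ^ 2 + 124 * n ^ 4 * d ^ 3
      - 64 * n ^ 3 * d ^ 4 - 64 * n ^ 2 * d ^ 5 + 32 * n * d ^ 6 + 16 * d ^ 7) = 0 := by
    have : ((n ^ 8 + (d : ℤ) * (4 * n ^ 7 - 16 * n ^ 6 * d - 32 * n ^ 5 * d ^ 2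
        + 124 * n ^ 4 * d ^ 3 - 64 * n ^ 3 * d ^ 4 - 64 * n ^ 2 * d ^ 5 + 32 * n * d ^ 6
        + 16 * d ^ 7) : ℤ) : ℚ) = 0 := by
      push_cast; linear_combination h
    exact_mod_cast this
  have hcop : IsCoprime (n ^ 8) (d : ℤ) := by
    rw [← hn, ← hdd]
    exact (Int.isCoprime_iff_nat_coprime.2 (by simpa using w.reduced)).pow_left
  have hunit : IsUnit (d : ℤ) := by
    refine hcop.isUnit_of_dvd' ?_ (dvd_refl _)
    exact (dvd_add_right (dvd_mul_right _ _)).1 (by rw [add_comm] at hz; rw [hz]; exact dvd_zero _)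
  have hd1 : d = 1 := by simpa [Int.isUnit_iff_natAbs_eq] using hunit
  subst hd1
  have h3 := congrArg (fun t : ℤ => (t : ZMod 3)) hz
  push_cast at h3
  revert h3
  generalize (n : ZMod 3) = x
  revert x; decide

/-- The case where the auxiliary denominator vanishes: only `S = -40`. -/
lemma degenerate_case {S w : ℚ} (hS : S ≠ 0)
    (hF : S ^ 3 + 10 * S ^ 2 - S ^ 2 * w ^ 3 + 5 * S + 24 * S * w - 10 * S * w ^ 3 - 5 * w ^ 3
      + 3 * w ^ 4 = 0)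
    (hQ : 10 + 19 * w - 10 * w ^ 2 - 3 * w ^ 3 + S * (2 + w) = 0) : S = -40 := by
  have hw2 : 2 + w ≠ 0 := by
    intro h
    have : w = -2 := by linarith
    subst this; norm_num at hQ
  have hSeq : S = -(10 + 19 * w - 10 * w ^ 2 - 3 * w ^ 3) / (2 + w) := by
    rw [eq_div_iff hw2]; linear_combination hQ
  have hR : (3 * w - 5) * (3 * w + 10) * (w ^ 8 + 4 * w ^ 7 - 16 * w ^ 6 - 32 * w ^ 5 + 124 * w ^ 4
      - 64 * w ^ 3 - 64 * w ^ 2 + 32 * w + 16) = 0 := by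
    rw [hSeq] at hF
    field_simp at hF
    linear_combination -hF
  rcases mul_eq_zero.1 hR with hR | hR
  · rcases mul_eq_zero.1 hR with hR | hR
    · have : w = 5 / 3 := by linarith
      subst this; norm_num at hQ; exact absurd (by linarith) hS
    · have : w = -10 / 3 := by linarith
      subst this; norm_num at hQ; linarith
  · exact absurd hR (octic_ne_zero w)

/-- A point of the quartic relation forces `5 ∣ S.num`, `¬ 125 ∣ S.num`. -/
lemma five_adic_of_relation {S h : ℚ} (hS : S ≠ 0)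
    (hrel : h * S ^ 2 + (1 + 9 * h + 9 * h ^ 3 - h ^ 4) * S + 125 * h ^ 3 = 0) :
    (5 : ℤ) ∣ S.num ∧ ¬ (125 : ℤ) ∣ S.num := by
  have hh : h ≠ 0 := by rintro rfl; simp at hrel; exact hS hrel
  have hd : (h.den : ℚ) ≠ 0 := by exact_mod_cast h.den_ne_zero
  have hd' : (S.den : ℚ) ≠ 0 := by exact_mod_cast S.den_ne_zero
  rw [← Rat.num_div_den h, ← Rat.num_div_den S] at hrel
  field_simp at hrel
  set p := h.num with hp
  set a := S.num with ha
  set q : ℤ := (h.den : ℤ) with hq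
  set d : ℤ := (S.den : ℤ) with hdd
  have hpq : IsCoprime p q := Int.isCoprime_iff_nat_coprime.2 (by simpa [hp, hq] using h.reduced)
  have had : IsCoprime a d := Int.isCoprime_iff_nat_coprime.2 (by simpa [ha, hdd] using S.reduced)
  have hp0 : p ≠ 0 := Rat.num_ne_zero.2 hh
  have hq0 : q ≠ 0 := by rw [hq]; exact_mod_cast h.den_ne_zero
  have hd0 : d ≠ 0 := by rw [hdd]; exact_mod_cast S.den_ne_zero
  have hz : p * q ^ 3 * a ^ 2 + (q ^ 4 + 9 * p * q ^ 3 + 9 * p ^ 3 * q - p ^ 4) * a * d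
      + 125 * p ^ 3 * q * d ^ 2 = 0 := by
    have : ((p * q ^ 3 * a ^ 2 + (q ^ 4 + 9 * p * q ^ 3 + 9 * p ^ 3 * q - p ^ 4) * a * d
      + 125 * p ^ 3 * q * d ^ 2 : ℤ) : ℚ) = 0 := by
      push_cast [hq, hdd]; linear_combination hrel
    exact_mod_cast this
  have hP : Prime (5 : ℤ) := Int.prime_iff_natAbs_prime.2 (by norm_num)
  -- Otherwise the discriminant makes the quartic a square, against `quartic_trivial`.
  have h53 : (5 : ℤ) ∣ p - 3 * q := by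
    by_contra h5
    obtain ⟨z, hz'⟩ : ∃ z, (p ^ 2 + p * q - q ^ 2) * (p ^ 2 - 11 * p * q - q ^ 2) = z ^ 2 := by
      refine exists_sq_of_mul (c := d * (p ^ 2 - 4 * p * q - q ^ 2))
        (x := 2 * p * q ^ 3 * a + (q ^ 4 + 9 * p * q ^ 3 + 9 * p ^ 3 * q - p ^ 4) * d) ?_
        (by linear_combination -4 * p * q ^ 3 * hz)
      refine mul_ne_zero hd0 fun h0 => Small.sq_ne_prime Nat.prime_five (((p : ℚ) - 2 * q) / q) ?_
      have hqQ : (q : ℚ) ≠ 0 := by exact_mod_cast hq0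
      have h0' : (p : ℚ) ^ 2 - 4 * p * q - q ^ 2 = 0 := by exact_mod_cast h0
      field_simp
      linear_combination h0'
    exact quartic_trivial hpq hp0 hq0 h5 hz'
  have h5q : ¬ (5 : ℤ) ∣ q := fun h => hP.not_isUnit (hpq.isUnit_of_dvd'
    (by simpa using dvd_add h53 (h.mul_left 3)) h)
  have h5p : ¬ (5 : ℤ) ∣ p := fun h => by
    rcases hP.dvd_or_dvd (show (5 : ℤ) ∣ 3 * q by simpa using dvd_sub h h53) with h' | h'
    · norm_num at h'
    · exact h5q h'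
  obtain ⟨e, he⟩ := h53
  clear_value p
  obtain rfl : p = 5 * e + 3 * q := by linarith
  -- As `5 ∤ p * q`, the relation forces `5 ∣ a`; if `125 ∣ a`, divided by `125` it forces
  -- `5 ∣ d`.
  constructor
  · by_contra h5a
    have h1 : (5 : ℤ) ∣ (5 * e + 3 * q) * q ^ 3 * a ^ 2 := by
      refine ⟨(125 * e ^ 4 + 75 * e ^ 3 * q - 135 * e ^ 2 * q ^ 2 - 144 * e * q ^ 3 - 38 * q ^ 4)
        * a * d - 25 * (5 * e + 3 * q) ^ 3 * q * d ^ 2, ?_⟩
      linear_combination hz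
    rcases hP.dvd_or_dvd h1 with h1 | h1
    · rcases hP.dvd_or_dvd h1 with h1 | h1
      · exact h5p h1
      · exact h5q (hP.dvd_of_dvd_pow h1)
    · exact h5a (hP.dvd_of_dvd_pow h1)
  · rintro ⟨b, hb⟩
    rw [hb] at hz had
    have h5d : ¬ (5 : ℤ) ∣ d := fun h => hP.not_isUnit
      (had.isUnit_of_dvd' ((show (5 : ℤ) ∣ 125 by norm_num).mul_right b) h)
    have h1 : (5 : ℤ) ∣ (5 * e + 3 * q) ^ 3 * q * d ^ 2 := by
      refine ⟨(125 * e ^ 4 + 75 * e ^ 3 * q - 135 * e ^ 2 * q ^ 2 - 144 * e * q ^ 3 - 38 * q ^ 4)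
        * b * d - 25 * (5 * e + 3 * q) * q ^ 3 * b ^ 2, ?_⟩
      refine mul_left_cancel₀ (show (125 : ℤ) ≠ 0 by norm_num) ?_
      linear_combination hz
    rcases hP.dvd_or_dvd h1 with h1 | h1
    · rcases hP.dvd_or_dvd h1 with h1 | h1
      · exact h5p (hP.dvd_of_dvd_pow h1)
      · exact h5q h1
    · exact h5d (hP.dvd_of_dvd_pow h1)

/-- The main result on the fibre product. -/
theorem hauptmodul_five_adic {T S : ℚ} (hT : T ≠ 0) (hS : S ≠ 0)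
    (h : (T + 27) * (T + 3) ^ 3 * S = (S ^ 2 + 10 * S + 5) ^ 3 * T) :
    (5 : ℤ) ∣ S.num ∧ ¬ (125 : ℤ) ∣ S.num := by
  have hA : S ^ 2 + 10 * S + 5 ≠ 0 := fun h0 =>
    Small.sq_ne_prime Nat.prime_five ((S + 5) / 2) (by push_cast; linear_combination h0 / 4)
  have hT3 : T + 3 ≠ 0 := by
    intro h0; rw [h0] at h; simp [hA, hT] at h
  obtain ⟨w, hw⟩ : ∃ w, S ^ 2 + 10 * S + 5 = w * (T + 3) :=
    ⟨_, (div_mul_cancel₀ _ hT3).symm⟩
  have h2 : S * (T + 27) = w ^ 3 * T :=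
    mul_right_cancel₀ (pow_ne_zero 3 hT3) (by rw [hw] at h; linear_combination h)
  have hF : S ^ 3 + 10 * S ^ 2 - S ^ 2 * w ^ 3 + 5 * S + 24 * S * w - 10 * S * w ^ 3 - 5 * w ^ 3
      + 3 * w ^ 4 = 0 := by
    linear_combination (S - w ^ 3) * hw + w * h2
  by_cases hQ : 10 + 19 * w - 10 * w ^ 2 - 3 * w ^ 3 + S * (2 + w) = 0
  · rw [degenerate_case hS hF hQ]; norm_num
  obtain ⟨P, hPe⟩ : ∃ P : ℚ, P = w ^ 2 - 2 * w + S * (w ^ 2 + 2 * w - 4) := ⟨_, rfl⟩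
  obtain ⟨Q, hQe⟩ : ∃ Q : ℚ, Q = 10 + 19 * w - 10 * w ^ 2 - 3 * w ^ 3 + S * (2 + w) := ⟨_, rfl⟩
  rw [← hQe] at hQ
  have hG : P * Q ^ 3 * S ^ 2 + (Q ^ 4 + 9 * P * Q ^ 3 + 9 * P ^ 3 * Q - P ^ 4) * S
      + 125 * P ^ 3 * Q = 0 := by
    rw [hPe, hQe]
    linear_combination (2000 + 2000 * w - 5000 * w ^ 2 + 2000 * w ^ 3 + 125 * w ^ 4 - 125 * w ^ 5
    - 9600 * S - 12000 * S * w + 27480 * S * w ^ 2 + 2108 * S * w ^ 3 - 9478 * S * w ^ 4
    - 1445 * S * w ^ 5 + 1008 * S * w ^ 6 + 324 * S * w ^ 7 + 27 * S * w ^ 8 - 1840 * S ^ 2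
    + 560 * S ^ 2 * w + 1000 * S ^ 2 * w ^ 2 - 111 * S ^ 2 * w ^ 4 - 15 * S ^ 2 * w ^ 5
    - 32 * S ^ 3 - 32 * S ^ 3 * w + 8 * S ^ 3 * w ^ 2 + 20 * S ^ 3 * w ^ 3 + 8 * S ^ 3 * w ^ 4
    + S ^ 3 * w ^ 5) * hF
  refine five_adic_of_relation (h := P / Q) hS ?_
  field_simp
  linear_combination hG

end Fermat.Agent.Mazur.Fifteen
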