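import Mathlib
import Fermat.Prelude.Def_FLTPrelim_Modularity
import Fermat.Agent.Mazur.Fifteen.Curve

/-!
# A semistable curve has no rational point on `X₀(15)`

`no_semistable_x0_fifteen_point`, used with `Three`, `Five` and `Line` for S51: such a point gives
Hauptmoduln `T` of level `3` and `S` of level `5` with the same `j`. Then:

1. The numerator of `S` is divisible by `5` but not by `125` (`hauptmodul_five_adic`, `Curve`).
2. Semistability at `5` excludes this (`semistable_five_adic`).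
-/

set_option autoImplicit false

namespace Fermat.Agent.Mazur.Fifteen

/-- For a semistable model, the level 5 Hauptmodul cannot have numerator of `5`-valuation `1, 2`. -/
lemma semistable_five_adic (W : WeierstrassCurve ℤ) (hW : W.IsSemistableModel) {S : ℚ}
    (h : (W.c₄ : ℚ) ^ 3 * S = (W.Δ : ℚ) * (S ^ 2 + 10 * S + 5) ^ 3)
    (h5 : (5 : ℤ) ∣ S.num) : (125 : ℤ) ∣ S.num := by
  have hss : (5 : ℤ) ∣ W.Δ → ¬ (5 : ℤ) ∣ W.c₄ := hW 5 (by norm_num)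
  have hd' : (S.den : ℚ) ≠ 0 := by exact_mod_cast S.den_ne_zero
  have hP : Prime (5 : ℤ) := Int.prime_iff_natAbs_prime.2 (by norm_num)
  have hred : IsCoprime S.num (S.den : ℤ) :=
    Int.isCoprime_iff_nat_coprime.2 (by simpa using S.reduced)
  rw [← Rat.num_div_den S] at h
  field_simp at h
  obtain ⟨b, hb⟩ := h5
  rw [hb] at h hred ⊢
  have hz : W.c₄ ^ 3 * (5 * b) * (S.den : ℤ) ^ 5
      = W.Δ * ((5 * b) ^ 2 + 10 * (5 * b) * S.den + 5 * (S.den : ℤ) ^ 2) ^ 3 := by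
    have : ((W.c₄ ^ 3 * (5 * b) * (S.den : ℤ) ^ 5 : ℤ) : ℚ)
        = ((W.Δ * ((5 * b) ^ 2 + 10 * (5 * b) * S.den + 5 * (S.den : ℤ) ^ 2) ^ 3 : ℤ) : ℚ) := by
      push_cast at h ⊢; linear_combination h
    exact_mod_cast this
  generalize (S.den : ℤ) = d at hz hred
  have h5d : ¬ (5 : ℤ) ∣ d := fun hd => hP.not_isUnit
    (hred.isUnit_of_dvd' (dvd_mul_right _ _) hd)
  have hz' : W.c₄ ^ 3 * b * d ^ 5 = 25 * (W.Δ * (5 * b ^ 2 + 10 * b * d + d ^ 2) ^ 3) :=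
    mul_left_cancel₀ (show (5 : ℤ) ≠ 0 by norm_num) (by linear_combination hz)
  by_cases hc : (5 : ℤ) ∣ W.c₄
  · exfalso
    obtain ⟨c, hc'⟩ := hc
    have hz'' : 5 * (c ^ 3 * b * d ^ 5) = W.Δ * (5 * b ^ 2 + 10 * b * d + d ^ 2) ^ 3 :=
      mul_left_cancel₀ (show (25 : ℤ) ≠ 0 by norm_num)
        (by rw [hc'] at hz'; linear_combination hz')
    rcases hP.dvd_or_dvd (show (5 : ℤ) ∣ W.Δ * (5 * b ^ 2 + 10 * b * d + d ^ 2) ^ 3 from
      ⟨_, hz''.symm⟩) with hΔ | hu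
    · exact hss hΔ ⟨c, hc'⟩
    · refine h5d (hP.dvd_of_dvd_pow (n := 2) ?_)
      exact (dvd_add_right ⟨b ^ 2 + 2 * b * d, by ring⟩).1 (hP.dvd_of_dvd_pow hu)
  · have hco : IsCoprime ((5 : ℤ) ^ 2) (W.c₄ ^ 3 * d ^ 5) :=
      ((hP.coprime_iff_not_dvd.2 hc).pow_right.mul_right
        (hP.coprime_iff_not_dvd.2 h5d).pow_right).pow_left
    obtain ⟨b', rfl⟩ : (5 : ℤ) ^ 2 ∣ b :=
      hco.dvd_of_dvd_mul_left ⟨W.Δ * (5 * b ^ 2 + 10 * b * d + d ^ 2) ^ 3,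
        by linear_combination hz'⟩
    exact ⟨b', by ring⟩

/-- No semistable curve has both a point on `X₀(3)` and one on `X₀(5)`. -/
theorem no_semistable_x0_fifteen_point (W : WeierstrassCurve ℤ) (hΔ : W.Δ ≠ 0)
    (hW : W.IsSemistableModel) {T S : ℚ} (hT : T ≠ 0) (hS : S ≠ 0)
    (h3 : (W.c₄ : ℚ) ^ 3 * T = (W.Δ : ℚ) * ((T + 27) * (T + 3) ^ 3))
    (h5 : (W.c₄ : ℚ) ^ 3 * S = (W.Δ : ℚ) * (S ^ 2 + 10 * S + 5) ^ 3) : False := by
  have hne : (W.Δ : ℚ) ≠ 0 := by exact_mod_cast hΔ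
  obtain ⟨h, h'⟩ := hauptmodul_five_adic hT hS
    (mul_left_cancel₀ hne (by linear_combination T * h5 - S * h3))
  exact h' (semistable_five_adic W hW h5 h)

end Fermat.Agent.Mazur.Fifteen
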