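import Fermat.Agent.Mazur.Fifteen.Descent

/-!
# Rational points on `y² = (h² + h - 1)(h² - 11 h - 1)` (a model of `X₀(15)`)

The only points with `h = p / q ∉ {0, ∞}` have `p ≡ 3 q (mod 5)`.
-/

set_option autoImplicit false

namespace Fermat.Agent.Mazur.Fifteen

/-- If `F * G` is a square with `F, G` coprime and `G > 0`, then `F` and `G` are squares. -/
lemma squares_of_mul_eq_sq {F G y : ℤ} (h : F * G = y ^ 2) (hco : IsCoprime F G) (hG : 0 < G) :
    (∃ m, F = m ^ 2) ∧ ∃ n, G = n ^ 2 := by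
  obtain ⟨n, hn⟩ := Int.sq_of_isCoprime hco.symm (show G * F = y ^ 2 by linear_combination h)
  have hn' : G = n ^ 2 := by
    rcases hn with hn | hn
    · exact hn
    · nlinarith
  have hn0 : n ≠ 0 := by rintro rfl; simp at hn'; omega
  obtain ⟨m, rfl⟩ : n ∣ y := (Int.pow_dvd_pow_iff two_ne_zero).1 ⟨F, by rw [← h, hn']; ring⟩
  exact ⟨⟨m, mul_right_cancel₀ (pow_ne_zero 2 hn0) (by linear_combination h - F * hn')⟩,
    n, hn'⟩

/-- `r² - 4 l² = m²` and `4 r² + 9 l² = n²` force `r l m = 0`. -/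
lemma concordant_of_L {r l m n : ℤ} (hm : r ^ 2 - 4 * l ^ 2 = m ^ 2)
    (hn : 4 * r ^ 2 + 9 * l ^ 2 = n ^ 2) : r = 0 ∨ l = 0 ∨ m = 0 := by
  have h : Concordant (2 * r * m) (n * l) := by
    refine ⟨⟨2 * r ^ 2 - 3 * l ^ 2, ?_⟩, ⟨2 * r ^ 2 + 12 * l ^ 2, ?_⟩⟩
    · linear_combination -4 * r ^ 2 * hm - l ^ 2 * hn
    · linear_combination -4 * r ^ 2 * hm - 16 * l ^ 2 * hn
  have h0 := concordant_trivial h
  simp only [mul_eq_zero, OfNat.ofNat_ne_zero, false_or] at h0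
  rcases h0 with (h0 | h0) | (h0 | h0)
  · exact Or.inl h0
  · exact Or.inr (Or.inr h0)
  · refine Or.inr (Or.inl ?_)
    subst h0
    by_contra hl
    have : 0 < l ^ 2 := sq_pos_iff.2 hl
    nlinarith
  · exact Or.inr (Or.inl h0)

/-- A common divisor argument: two forms whose combinations give `25 r²` and `25 l²`. -/
lemma coprime_of_five {r l F G c₁ d₁ c₂ d₂ : ℤ} (hr : c₁ * F + d₁ * G = 25 * r ^ 2)
    (hl : c₂ * F + d₂ * G = 25 * l ^ 2) (hco : IsCoprime r l) (h5 : ¬ (5 : ℤ) ∣ G) :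
    IsCoprime F G := by
  obtain ⟨u, v, huv⟩ := hco.pow (m := 2) (n := 2)
  have hFG : (u * c₁ + v * c₂) * F + (u * d₁ + v * d₂) * G = 25 := by
    linear_combination u * hr + v * hl + 25 * huv
  have h25 : IsCoprime (25 : ℤ) G := by
    have h := ((Int.prime_iff_natAbs_prime.2 (by norm_num : Nat.Prime (5 : ℤ).natAbs)
      ).coprime_iff_not_dvd.2 h5).pow_left (m := 2)
    norm_num at h; exact h
  obtain ⟨a, b, hab⟩ := h25
  exact ⟨a * (u * c₁ + v * c₂), a * (u * d₁ + v * d₂) + b, by linear_combination a * hFG + hab⟩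

lemma five_dvd_of_X {r l d : ℤ} (hco : IsCoprime r l) (hr : r ≠ 0) (hl : l ≠ 0)
    (hd : (9 * r ^ 2 - 4 * l ^ 2) * (4 * r ^ 2 + l ^ 2) = d ^ 2) :
    (5 : ℤ) ∣ 4 * r ^ 2 + l ^ 2 := by
  by_contra h5
  have hG : 0 < 4 * r ^ 2 + l ^ 2 := by
    positivity
  obtain ⟨⟨m, hm⟩, n, hn⟩ := squares_of_mul_eq_sq hd
    (coprime_of_five (c₁ := 1) (d₁ := 4) (c₂ := -4) (d₂ := 9) (r := r) (l := l)
      (by ring) (by ring) hco h5) hG
  have h3 : (3 : ℤ) ∣ l ∧ (3 : ℤ) ∣ m := by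
    have hz : ((9 * r ^ 2 - 4 * l ^ 2 : ℤ) : ZMod 3) = ((m ^ 2 : ℤ) : ZMod 3) := by rw [hm]
    push_cast at hz
    rw [show (9 : ZMod 3) = 0 from rfl, show (4 : ZMod 3) = 1 from rfl] at hz
    have key : ∀ a b : ZMod 3, (0 : ZMod 3) - 1 * a ^ 2 = b ^ 2 → a = 0 ∧ b = 0 := by decide
    obtain ⟨h1, h2⟩ := key (l : ZMod 3) (m : ZMod 3) (by simpa using hz)
    exact ⟨(ZMod.intCast_zmod_eq_zero_iff_dvd l 3).1 h1,
      (ZMod.intCast_zmod_eq_zero_iff_dvd m 3).1 h2⟩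
  obtain ⟨⟨l1, rfl⟩, ⟨m1, rfl⟩⟩ := h3
  rcases concordant_of_L (r := r) (l := l1) (m := m1) (n := n) (by linarith) (by linarith) with
    h | h | h
  · exact hr h
  · exact hl (by rw [h, mul_zero])
  · subst h
    refine h5 ⟨5 * l1 ^ 2, ?_⟩
    linarith

lemma five_dvd_of_Y {k s d : ℤ} (hco : IsCoprime k s) (hk : k ≠ 0) (hs : s ≠ 0)
    (hd : (k ^ 2 - 4 * s ^ 2) * (4 * k ^ 2 + 9 * s ^ 2) = d ^ 2) :
    (5 : ℤ) ∣ 4 * k ^ 2 + 9 * s ^ 2 := by
  by_contra h5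
  have hG : 0 < 4 * k ^ 2 + 9 * s ^ 2 := by
    positivity
  obtain ⟨⟨m, hm⟩, n, hn⟩ := squares_of_mul_eq_sq hd
    (coprime_of_five (c₁ := 9) (d₁ := 4) (c₂ := -4) (d₂ := 1) (r := k) (l := s)
      (by ring) (by ring) hco h5) hG
  rcases concordant_of_L hm hn with h | h | h
  · exact hk h
  · exact hs h
  · subst h
    refine h5 ⟨5 * s ^ 2, ?_⟩
    linarith

lemma exists_sq_of_mul {c d x : ℤ} (hc : c ≠ 0) (h : c ^ 2 * d = x ^ 2) : ∃ z, d = z ^ 2 := by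
  obtain ⟨z, rfl⟩ : c ∣ x := (Int.pow_dvd_pow_iff two_ne_zero).1 ⟨d, h.symm⟩
  exact ⟨z, mul_left_cancel₀ (pow_ne_zero 2 hc) (by linear_combination h)⟩

lemma three_q_case {P Q : ZMod 5} (R L K S : ZMod 5) (h1 : 4 * R ^ 2 + L ^ 2 = 0)
    (h2 : 4 * K ^ 2 + 9 * S ^ 2 = 0) (hP : P = R * K) (hQ : Q = S * L) :
    P = 3 * Q ∨ P = 2 * Q := by
  subst hP hQ
  revert h1 h2; revert R L K S; decide

/-- The positive sign case: both quadratic factors are squares. -/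
lemma quartic_pos {p q a b : ℤ} (hpq : IsCoprime p q) (hp : p ≠ 0) (hq : q ≠ 0)
    (h5 : ¬ (5 : ℤ) ∣ p - 3 * q) (hA : p ^ 2 + p * q - q ^ 2 = a ^ 2)
    (hB : p ^ 2 - 11 * p * q - q ^ 2 = b ^ 2) : False := by
  -- parity of `a, b`
  have hpar : ∀ P Q A B : ZMod 2, P ^ 2 + P * Q - Q ^ 2 = A ^ 2 →
      P ^ 2 - 11 * P * Q - Q ^ 2 = B ^ 2 → A - B = 0 := by decide
  obtain ⟨u, hu⟩ : (2 : ℤ) ∣ a - b := by
    have hA' := congrArg (fun t : ℤ => (t : ZMod 2)) hA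
    have hB' := congrArg (fun t : ℤ => (t : ZMod 2)) hB
    push_cast at hA' hB'
    exact (ZMod.intCast_zmod_eq_zero_iff_dvd _ 2).1
      (by push_cast; exact hpar _ _ _ _ hA' hB')
  obtain ⟨v, hv⟩ : (2 : ℤ) ∣ a + b := ⟨u + b, by linear_combination hu⟩
  have huv : u * v = 3 * (p * q) := by
    apply mul_left_cancel₀ (show (4 : ℤ) ≠ 0 by norm_num)
    linear_combination -2 * v * hu - (a - b) * hv - hA + hB
  -- normalise the sign of `b` so that `3 ∣ u`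
  obtain ⟨u', v', huv', ha⟩ : ∃ u' v' : ℤ, u' * v' = p * q ∧ a = 3 * u' + v' := by
    rcases Int.prime_three.dvd_mul.1 ⟨p * q, huv⟩ with ⟨w, rfl⟩ | ⟨w, rfl⟩
    · exact ⟨w, v, by linarith, by linarith⟩
    · exact ⟨w, u, by linarith, by linarith⟩
  have hu0 : u' ≠ 0 := by rintro rfl; simp [hp, hq] at huv'
  obtain ⟨r, s, k, l, rfl, rfl, rfl, rfl, hsk⟩ := four_number huv'.symm hu0
  -- now `p = r k`, `q = s l`
  obtain ⟨hr0, hk0⟩ := mul_ne_zero_iff.1 hp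
  obtain ⟨hs0, hl0⟩ := mul_ne_zero_iff.1 hq
  have hrl : IsCoprime r l := hpq.of_mul_left_left.of_mul_right_right
  have main : (3 * (r * s) + k * l) ^ 2 = (r * k) ^ 2 + r * k * (s * l) - (s * l) ^ 2 := by
    rw [← ha]; exact hA.symm
  obtain ⟨d, hd⟩ : ∃ d, (9 * r ^ 2 - 4 * l ^ 2) * (4 * r ^ 2 + l ^ 2) = d ^ 2 :=
    exists_sq_of_mul (x := 2 * (l ^ 2 - r ^ 2) * k + 5 * r * l * s) hs0
      (by linear_combination -4 * (l ^ 2 - r ^ 2) * main)
  obtain ⟨d', hd'⟩ : ∃ d, (k ^ 2 - 4 * s ^ 2) * (4 * k ^ 2 + 9 * s ^ 2) = d ^ 2 :=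
    exists_sq_of_mul (x := 2 * (k ^ 2 - 9 * s ^ 2) * r - 5 * l * k * s) hl0
      (by linear_combination 4 * (k ^ 2 - 9 * s ^ 2) * main)
  have hX := (ZMod.intCast_zmod_eq_zero_iff_dvd _ 5).2 (five_dvd_of_X hrl hr0 hl0 hd)
  have hY := (ZMod.intCast_zmod_eq_zero_iff_dvd _ 5).2 (five_dvd_of_Y hsk.symm hk0 hs0 hd')
  push_cast at hX hY
  rcases three_q_case (P := ((r * k : ℤ) : ZMod 5)) (Q := ((s * l : ℤ) : ZMod 5)) _ _ _ _ hX hY
    (by push_cast; rfl) (by push_cast; rfl) with h | h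
  · refine h5 ((ZMod.intCast_zmod_eq_zero_iff_dvd _ 5).1 ?_)
    push_cast at h ⊢; rw [h, sub_self]
  · have h2 : (5 : ℤ) ∣ r * k - 2 * (s * l) := by
      refine (ZMod.intCast_zmod_eq_zero_iff_dvd _ 5).1 ?_
      push_cast at h ⊢; rw [h, sub_self]
    obtain ⟨e, he⟩ := h2
    have hPrime : Prime (5 : ℤ) := Int.prime_iff_natAbs_prime.2 (by norm_num)
    generalize r * k = P at *
    generalize s * l = Q at *
    obtain rfl : P = 5 * e + 2 * Q := by linarith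
    have h5a : (5 : ℤ) ∣ a := hPrime.dvd_of_dvd_pow
      ⟨5 * e ^ 2 + 5 * e * Q + Q ^ 2, by rw [← hA]; ring⟩
    obtain ⟨a', rfl⟩ := h5a
    have h5Q : (5 : ℤ) ∣ Q := hPrime.dvd_of_dvd_pow (n := 2)
      ⟨a' ^ 2 - e ^ 2 - e * Q, by linarith⟩
    exact hPrime.not_isUnit (hpq.isUnit_of_dvd' (dvd_add (dvd_mul_right 5 e) (h5Q.mul_left 2)) h5Q)

theorem quartic_trivial {p q y : ℤ} (hpq : IsCoprime p q) (hp : p ≠ 0) (hq : q ≠ 0)
    (h5 : ¬ (5 : ℤ) ∣ p - 3 * q)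
    (h : (p ^ 2 + p * q - q ^ 2) * (p ^ 2 - 11 * p * q - q ^ 2) = y ^ 2) : False := by
  set A := p ^ 2 + p * q - q ^ 2 with hA
  set B := p ^ 2 - 11 * p * q - q ^ 2 with hB
  -- As `B = A - 12 p q`, the factors are coprime, hence squares up to sign.
  have hco : IsCoprime A B := by
    have h12 : IsCoprime A 12 := by
      have h2 : ¬ (2 : ℤ) ∣ A := by
        intro h
        have key : ∀ P Q : ZMod 2, P ^ 2 + P * Q - Q ^ 2 = 0 → P = 0 ∧ Q = 0 := by decide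
        have := (ZMod.intCast_zmod_eq_zero_iff_dvd A 2).2 h
        rw [hA] at this; push_cast at this
        obtain ⟨h1, h2⟩ := key _ _ this
        exact Int.prime_two.not_isUnit (hpq.isUnit_of_dvd'
          ((ZMod.intCast_zmod_eq_zero_iff_dvd p 2).1 h1)
          ((ZMod.intCast_zmod_eq_zero_iff_dvd q 2).1 h2))
      have h3 : ¬ (3 : ℤ) ∣ A := by
        intro h
        have key : ∀ P Q : ZMod 3, P ^ 2 + P * Q - Q ^ 2 = 0 → P = 0 ∧ Q = 0 := by decide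
        have := (ZMod.intCast_zmod_eq_zero_iff_dvd A 3).2 h
        rw [hA] at this; push_cast at this
        obtain ⟨h1, h2⟩ := key _ _ this
        exact Int.prime_three.not_isUnit (hpq.isUnit_of_dvd'
          ((ZMod.intCast_zmod_eq_zero_iff_dvd p 3).1 h1)
          ((ZMod.intCast_zmod_eq_zero_iff_dvd q 3).1 h2))
      have e2 := (Int.prime_two.coprime_iff_not_dvd.2 h2).symm
      have e3 := (Int.prime_three.coprime_iff_not_dvd.2 h3).symm
      have := (e2.mul_right e2).mul_right e3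
      norm_num at this; exact this
    have hp1 : IsCoprime A p := by
      rw [show A = -q ^ 2 + p * (p + q) by rw [hA]; ring]
      exact (hpq.symm.pow_left (m := 2)).neg_left.add_mul_left_left _
    have hq1 : IsCoprime A q := by
      rw [show A = p ^ 2 + q * (p - q) by rw [hA]; ring]
      exact (hpq.pow_left (m := 2)).add_mul_left_left _
    have := ((h12.mul_right hp1).mul_right hq1).neg_right.add_mul_left_right 1
    rw [show -(12 * p * q) + A * 1 = B by rw [hA, hB]; ring] at this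
    exact this
  obtain ⟨a, ha⟩ := Int.sq_of_isCoprime hco h
  obtain ⟨b, hb⟩ := Int.sq_of_isCoprime hco.symm (show B * A = y ^ 2 by linear_combination h)
  have hA0 : A ≠ 0 := by
    intro h0
    have := (ZMod.intCast_zmod_eq_zero_iff_dvd A 2).2 (h0 ▸ dvd_zero _)
    rw [h0] at hco
    have key : ∀ P Q : ZMod 2, P ^ 2 + P * Q - Q ^ 2 = 0 → P = 0 ∧ Q = 0 := by decide
    rw [hA] at this; push_cast at this
    obtain ⟨h1, h2⟩ := key _ _ this
    exact Int.prime_two.not_isUnit (hpq.isUnit_of_dvd'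
      ((ZMod.intCast_zmod_eq_zero_iff_dvd p 2).1 h1)
      ((ZMod.intCast_zmod_eq_zero_iff_dvd q 2).1 h2))
  -- Equal signs reduce to `quartic_pos`, after `(p, q) ↦ (q, -p)` if negative; unequal signs
  -- force a zero.
  rcases ha with ha | ha <;> rcases hb with hb | hb
  · exact quartic_pos hpq hp hq h5 ha hb
  · by_cases hb0 : b = 0
    · exact quartic_pos hpq hp hq h5 ha (b := 0) (by rw [← hB, hb, hb0]; ring)
    · have : a ≠ 0 := by rintro rfl; simp at ha; exact hA0 ha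
      have : 0 < a ^ 2 * b ^ 2 := by positivity
      rw [ha, hb] at h; nlinarith [sq_nonneg y]
  · by_cases hb0 : b = 0
    · refine quartic_pos hpq.symm.neg_right hq (neg_ne_zero.2 hp) ?_ (a := a) (b := b) ?_ ?_
      · intro hd; apply h5
        obtain ⟨c, hc⟩ := hd
        exact ⟨2 * c - p - q, by linarith⟩
      · rw [hA] at ha; linarith
      · rw [hB, hb0] at hb; rw [hb0]; linarith
    · have : a ≠ 0 := by rintro rfl; simp at ha; exact hA0 ha
      have : 0 < a ^ 2 * b ^ 2 := by positivity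
      rw [ha, hb] at h; nlinarith [sq_nonneg y]
  · refine quartic_pos hpq.symm.neg_right hq (neg_ne_zero.2 hp) ?_ (a := a) (b := b) ?_ ?_
    · intro hd; apply h5
      obtain ⟨c, hc⟩ := hd
      exact ⟨2 * c - p - q, by linarith⟩
    · rw [hA] at ha; linarith
    · rw [hB] at hb; linarith

end Fermat.Agent.Mazur.Fifteen
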